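/-
S15 / block D, COROLLARY D' (report 339 (3)): perfect `GQ`-equivariant pairings `V × V' → Qb^*` of finite `GQ`-modules; orthogonal complements.
-/
import Fermat.Agent.S15.Sel.Defs

set_option autoImplicit false
set_option linter.unusedSectionVars false

noncomputable section

namespace Fermat.Agent.S15.D

open Fermat.Agent.S15.Sel

/-- a perfect equivariant pairing. -/
structure Pairing (V V' : Type*) [AddCommGroup V] [DistribMulAction GQ V] [AddCommGroup V']
    [DistribMulAction GQ V'] where
  e : V → V' → Qb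
  add_left : ∀ x y x', e (x + y) x' = e x x' * e y x'
  add_right : ∀ x x' y', e x (x' + y') = e x x' * e x y'
  ne_zero : ∀ x x', e x x' ≠ 0
  nd_left : ∀ x, (∀ x', e x x' = 1) → x = 0
  nd_right : ∀ x', (∀ x, e x x' = 1) → x' = 0
  equiv : ∀ (σ : GQ) x x', e (σ • x) (σ • x') = σ (e x x')

variable {V V' : Type*} [AddCommGroup V] [DistribMulAction GQ V] [AddCommGroup V']
  [DistribMulAction GQ V']

namespace Pairing

variable (p : Pairing V V')

/-- the pairing with the two arguments exchanged. -/
def flip : Pairing V' V where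
  e := fun x' x => p.e x x'
  add_left := fun x' y' x => p.add_right x x' y'
  add_right := fun x' x y => p.add_left x y x'
  ne_zero := fun x' x => p.ne_zero x x'
  nd_left := p.nd_right
  nd_right := p.nd_left
  equiv := fun σ x' x => p.equiv σ x x'

@[simp] theorem flip_e (x : V) (x' : V') : p.flip.e x' x = p.e x x' := rfl

theorem zero_left (x' : V') : p.e 0 x' = 1 := by
  have h := p.add_left 0 0 x'
  rw [add_zero] at h
  exact (mul_eq_left₀ (p.ne_zero 0 x')).1 h.symm

theorem zero_right (x : V) : p.e x 0 = 1 := p.flip.zero_left x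

theorem neg_left (x : V) (x' : V') : p.e (-x) x' = (p.e x x')⁻¹ := by
  have h := p.add_left (-x) x x'
  rw [neg_add_cancel, zero_left] at h
  exact eq_inv_of_mul_eq_one_left h.symm

theorem neg_right (x : V) (x' : V') : p.e x (-x') = (p.e x x')⁻¹ := p.flip.neg_left x' x

theorem sub_left (x y : V) (x' : V') : p.e (x - y) x' = p.e x x' / p.e y x' := by
  rw [sub_eq_add_neg, add_left, neg_left, div_eq_mul_inv]

theorem sub_right (x : V) (x' y' : V') : p.e x (x' - y') = p.e x x' / p.e x y' :=
  p.flip.sub_left x' y' x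

theorem nsmul_left (n : ℕ) (x : V) (x' : V') : p.e (n • x) x' = p.e x x' ^ n := by
  induction n with
  | zero => rw [zero_smul, zero_left, pow_zero]
  | succ n ih => rw [succ_nsmul, add_left, ih, pow_succ]

theorem nsmul_right (n : ℕ) (x : V) (x' : V') : p.e x (n • x') = p.e x x' ^ n :=
  p.flip.nsmul_left n x' x

/-- the character `e (·, x')` of `V`. -/
def chR (x' : V') : AddChar V Qb where
  toFun := fun x => p.e x x'
  map_zero_eq_one' := p.zero_left x'
  map_add_eq_mul' := fun x y => p.add_left x y x'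

@[simp] theorem chR_apply (x' : V') (x : V) : p.chR x' x = p.e x x' := rfl

/-- the character `e (x, ·)` of `V'`. -/
def chL (x : V) : AddChar V' Qb := p.flip.chR x

@[simp] theorem chL_apply (x : V) (x' : V') : p.chL x x' = p.e x x' := rfl

theorem smul_right (σ : GQ) (x : V) (x' : V') : p.e x (σ • x') = σ (p.e (σ⁻¹ • x) x') := by
  rw [← p.equiv, smul_inv_smul]

theorem smul_left (σ : GQ) (x : V) (x' : V') : p.e (σ • x) x' = σ (p.e x (σ⁻¹ • x')) :=
  p.flip.smul_right σ x' x

/-- the orthogonal complement. -/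
def perp (W : AddSubgroup V) : AddSubgroup V' where
  carrier := {x' | ∀ x ∈ W, p.e x x' = 1}
  zero_mem' := fun x _ => p.zero_right x
  add_mem' := fun {a b} ha hb x hx => by rw [add_right, ha x hx, hb x hx, one_mul]
  neg_mem' := fun {a} ha x hx => by rw [neg_right, ha x hx, inv_one]

theorem mem_perp {W : AddSubgroup V} {x' : V'} : x' ∈ p.perp W ↔ ∀ x ∈ W, p.e x x' = 1 := Iff.rfl

theorem perp_anti {W W' : AddSubgroup V} (h : W ≤ W') : p.perp W' ≤ p.perp W :=
  fun _ hx x hxW => hx x (h hxW)

theorem perp_top : p.perp ⊤ = ⊥ := by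
  rw [eq_bot_iff]
  intro x' hx'
  exact AddSubgroup.mem_bot.2 (p.nd_right x' fun x => hx' x (AddSubgroup.mem_top x))

theorem perp_bot : p.perp ⊥ = ⊤ := by
  rw [eq_top_iff]
  intro x' _ x hx
  rw [AddSubgroup.mem_bot.1 hx, zero_left]

theorem le_perp_perp (W : AddSubgroup V) : W ≤ p.flip.perp (p.perp W) :=
  fun x hx x' hx' => hx' x hx

theorem gstable_perp {W : AddSubgroup V} (hW : GStable W) : GStable (p.perp W) := by
  intro σ x' hx' x hx
  rw [smul_right, hx' _ (hW σ⁻¹ x hx), map_one]

end Pairing

end Fermat.Agent.S15.D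

end
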