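/-
S15 / block D, leaf PCH: a finite abelian group has exactly `#A` characters with values in `Qb`.
-/
import Fermat.Agent.S15.Sel.Defs

set_option autoImplicit false

namespace Fermat.Agent.S15.D

open Fermat.Agent.S15.Sel

/-- PROOF. `AddChar.toMonoidHomEquiv : AddChar A Qb ≃ (Multiplicative A →* Qb)`; `(G →* Qbˣ) ≃ (G →* Qb)` for a group `G` (`MonoidHom.toHomUnits` one way,
`(Units.coeHom Qb).comp` the other way); `CommGroup.card_monoidHom_of_hasEnoughRootsOfUnity (Multiplicative A) Qb` (the instance
`HasEnoughRootsOfUnity Qb n` needs `NeZero n` / `NeZero (n : Qb)`: `Monoid.exponent` of a finite group is `≠ 0`, `Monoid.exponent_ne_zero_of_finite`; `Qb` is algebraically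
closed of characteristic zero).  Finiteness: `Finite.of_injective` into `A → nthRoots`, or `Nat.finite_of_card_ne_zero` from the cardinality. -/
theorem card_addChar (A : Type*) [AddCommGroup A] [Finite A] :
    Finite (AddChar A Qb) ∧ Nat.card (AddChar A Qb) = Nat.card A := by
  have : NeZero (Monoid.exponent (Multiplicative A)) := ⟨Monoid.exponent_ne_zero_of_finite⟩
  have : HasEnoughRootsOfUnity Qb (Monoid.exponent (Multiplicative A)) := inferInstance
  let e : (Multiplicative A →* Qbˣ) ≃ (Multiplicative A →* Qb) :=
    { toFun := fun f => (Units.coeHom Qb).comp f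
      invFun := fun f => f.toHomUnits
      left_inv := fun f => by
        ext x
        rfl
      right_inv := fun f => by
        ext x
        rfl }
  have hcard : Nat.card (AddChar A Qb) = Nat.card A := by
    rw [Nat.card_congr (AddChar.toMonoidHomEquiv (A := A) (M := Qb)), ← Nat.card_congr e,
      CommGroup.card_monoidHom_of_hasEnoughRootsOfUnity]
    exact Nat.card_congr Multiplicative.toAdd
  exact ⟨Nat.finite_of_card_ne_zero (by rw [hcard]; exact Nat.card_pos.ne'), hcard⟩

end Fermat.Agent.S15.D
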