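/-
S15 / block D, leaf PCARD: cardinalities for a perfect pairing of finite abelian groups.
-/
import Fermat.Agent.S15.D.Pair
import Fermat.Agent.S15.D.PairChar

set_option autoImplicit false
set_option linter.unusedSectionVars false

namespace Fermat.Agent.S15.D

open Fermat.Agent.S15.Sel

variable {V V' : Type*} [AddCommGroup V] [DistribMulAction GQ V] [AddCommGroup V']
  [DistribMulAction GQ V']

namespace Pairing

variable (p : Pairing V V')

include p

/-- `x' ↦ e (·, x')` is injective (`chR x' = chR y'` gives `e x (x' - y') = 1` for all `x` by `sub_right`; `nd_right`). -/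
theorem chR_injective : Function.Injective p.chR := by
  intro x' y' h
  have h1 : x' - y' = 0 := by
    apply p.nd_right
    intro x
    have h2 : p.e x x' = p.e x y' := DFunLike.congr_fun h x
    rw [p.sub_right, h2, div_self (p.ne_zero x y')]
  exact sub_eq_zero.1 h1

/-- PROOF. `#V' ≤ #AddChar V Qb = #V` (`chR_injective`, `card_addChar`, `Nat.card_le_card_of_injective`). -/
theorem card_le [Finite V] : Nat.card V' ≤ Nat.card V := by
  obtain ⟨hfin, hcard⟩ := card_addChar V
  rw [← hcard]
  exact Nat.card_le_card_of_injective p.chR p.chR_injective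

theorem card_eq [Finite V] [Finite V'] : Nat.card V = Nat.card V' :=
  le_antisymm p.flip.card_le p.card_le

/-- every character of `V` is `e (·, x')`: `chR` is injective between finite sets of the same cardinality (`card_addChar`, `card_eq`;
`Function.Injective.bijective_of_nat_card_le`). -/
theorem exists_chR [Finite V] [Finite V'] (ψ : AddChar V Qb) : ∃ x' : V', ∀ x, ψ x = p.e x x' := by
  obtain ⟨hfin, hcard⟩ := card_addChar V
  have hbij : Function.Bijective p.chR :=
    p.chR_injective.bijective_of_nat_card_le (by rw [hcard, p.card_eq])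
  obtain ⟨x', hx'⟩ := hbij.2 ψ
  exact ⟨x', fun x => by rw [← hx', chR_apply]⟩

theorem exists_chL [Finite V] [Finite V'] (ψ : AddChar V' Qb) : ∃ x : V, ∀ x', ψ x' = p.e x x' :=
  p.flip.exists_chR ψ

/-- PROOF. `perp W → AddChar (V ⧸ W) Qb`, `x' ↦` the character induced by `chR x'` (trivial on `W`; e.g. build the `AddChar` from
`QuotientAddGroup.lift W (AddChar.toAddMonoidHom (chR x'))`, or avoid quotients: the map `x' ↦ chR x'` is an injection of `perp W` into
`{ψ : AddChar V Qb | ∀ w ∈ W, ψ w = 1}`, which is in bijection with `AddChar (V ⧸ W) Qb` by composition with `QuotientAddGroup.mk' W`).  So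
`#perp W ≤ #(V ⧸ W)` and `#W * #(V ⧸ W) = #V` (`AddSubgroup.card_eq_card_quotient_mul_card_addSubgroup`). -/
theorem card_mul_card_perp_le [Finite V] [Finite V'] (W : AddSubgroup V) :
    Nat.card W * Nat.card (p.perp W) ≤ Nat.card V := by
  obtain ⟨hfin, hcard⟩ := card_addChar (V ⧸ W)
  have hker : ∀ x' : p.perp W, ∀ x ∈ W, (p.chR x').toAddMonoidHom x = 0 := by
    intro x' x hx
    show Additive.ofMul (p.e x x') = 0
    rw [x'.2 x hx]
    rfl
  let f : p.perp W → AddChar (V ⧸ W) Qb := fun x' =>
    { toFun := fun q => Additive.toMul (QuotientAddGroup.lift W (p.chR x').toAddMonoidHom (hker x') q)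
      map_zero_eq_one' := by rw [map_zero]; rfl
      map_add_eq_mul' := fun a b => by rw [map_add]; rfl }
  have hf : ∀ (x' : p.perp W) (x : V), f x' (x : V ⧸ W) = p.e x x' := fun _ _ => rfl
  have hinj : Function.Injective f := by
    intro x' y' h
    apply Subtype.ext
    apply p.chR_injective
    ext x
    rw [chR_apply, chR_apply, ← hf, ← hf, h]
  have h1 := Nat.card_le_card_of_injective f hinj
  rw [hcard] at h1
  rw [AddSubgroup.card_eq_card_quotient_mul_card_addSubgroup W, mul_comm]
  exact Nat.mul_le_mul_right _ h1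

/-- PROOF. `f : V' → AddChar W Qb`, `x' ↦ (chR x').compAddMonoidHom W.subtype`; `f x' = f y' ↔ x' - y' ∈ perp W`.  So `V' ⧸ perp W` injects into
`AddChar W Qb`: `#V' = #(V' ⧸ perp W) * #perp W ≤ #W * #perp W`.  (Or: `count_hom`-style fibre counting: choose a section.) -/
theorem card_le_card_mul_card_perp [Finite V] [Finite V'] (W : AddSubgroup V) :
    Nat.card V' ≤ Nat.card W * Nat.card (p.perp W) := by
  obtain ⟨hfin, hcard⟩ := card_addChar W
  let f : V' → AddChar W Qb := fun x' => (p.chR x').compAddMonoidHom W.subtype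
  have hf : ∀ (x' : V') (x : W), f x' x = p.e x x' := fun _ _ => rfl
  have hiff : ∀ a b : V', f a = f b ↔ -a + b ∈ p.perp W := by
    intro a b
    constructor
    · intro h x hx
      have h1 : p.e x a = p.e x b := by
        have := DFunLike.congr_fun h (⟨x, hx⟩ : W)
        rwa [hf, hf] at this
      rw [p.add_right, p.neg_right, h1, inv_mul_cancel₀ (p.ne_zero x b)]
    · intro h
      ext x
      have h1 := h x x.2
      rw [p.add_right, p.neg_right] at h1
      rw [hf, hf]
      have h2 := p.ne_zero x a
      field_simp at h1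
      exact h1.symm
  let g : V' ⧸ p.perp W → AddChar W Qb :=
    Quotient.lift (s := QuotientAddGroup.leftRel (p.perp W)) f (fun a b hab =>
      (hiff a b).2 (QuotientAddGroup.leftRel_apply.1 hab))
  have hg : Function.Injective g := by
    intro a b
    induction a using QuotientAddGroup.induction_on with
    | H a =>
      induction b using QuotientAddGroup.induction_on with
      | H b =>
        intro h
        exact QuotientAddGroup.eq.2 ((hiff a b).1 h)
  have h1 := Nat.card_le_card_of_injective g hg
  rw [hcard] at h1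
  rw [AddSubgroup.card_eq_card_quotient_mul_card_addSubgroup (p.perp W)]
  exact Nat.mul_le_mul_right _ h1

theorem card_perp [Finite V] [Finite V'] (W : AddSubgroup V) :
    Nat.card W * Nat.card (p.perp W) = Nat.card V :=
  le_antisymm (p.card_mul_card_perp_le W) (p.card_eq ▸ p.card_le_card_mul_card_perp W)

/-- biduality. -/
theorem perp_perp [Finite V] [Finite V'] (W : AddSubgroup V) : p.flip.perp (p.perp W) = W := by
  symm
  apply AddSubgroup.eq_of_le_of_card_ge (p.le_perp_perp W)
  have h1 := p.card_perp W
  have h2 := p.flip.card_perp (p.perp W)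
  rw [← p.card_eq, ← h1, mul_comm] at h2
  have hpos : 0 < Nat.card (p.perp W) := Nat.card_pos
  exact (Nat.eq_of_mul_eq_mul_right hpos h2).le

/-- if `e (A, B) = 1` then `#A * #B ≤ #V`. -/
theorem card_mul_le [Finite V] [Finite V'] (A : AddSubgroup V) (B : AddSubgroup V')
    (h : ∀ x ∈ A, ∀ x' ∈ B, p.e x x' = 1) : Nat.card A * Nat.card B ≤ Nat.card V := by
  rw [← p.card_perp A]
  have hle : B ≤ p.perp A := fun x' hx' x hx => h x hx x' hx'
  exact Nat.mul_le_mul_left _ (AddSubgroup.card_le_of_le hle)

end Pairing

end Fermat.Agent.S15.D
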