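/-
S15 / block D, COROLLARY D': the dual of a composition series.
-/
import Fermat.Agent.S15.D.PairCard

set_option autoImplicit false
set_option linter.unusedSectionVars false

namespace Fermat.Agent.S15.D

open Fermat.Agent.S15.Sel

variable {V V' : Type*} [AddCommGroup V] [DistribMulAction GQ V] [AddCommGroup V']
  [DistribMulAction GQ V']

theorem relIndex_mul_card' {A : Type*} [AddCommGroup A] {H K : AddSubgroup A} (h : H ≤ K) :
    H.relIndex K * Nat.card H = Nat.card K := by
  have := AddSubgroup.relIndex_mul_relIndex ⊥ H K bot_le h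
  rwa [AddSubgroup.relIndex_bot_left, AddSubgroup.relIndex_bot_left, mul_comm] at this

namespace Pairing

variable (p : Pairing V V')

include p

/-- index of the orthogonal complements. -/
theorem relIndex_perp [Finite V] [Finite V'] {W W' : AddSubgroup V} (hle : W ≤ W') :
    (p.perp W').relIndex (p.perp W) = W.relIndex W' := by
  have h1 := relIndex_mul_card' (p.perp_anti hle)
  have h2 := relIndex_mul_card' hle
  have h3 := p.card_perp W
  have h4 := p.card_perp W'
  have hpos : 0 < Nat.card W * Nat.card (p.perp W') := Nat.mul_pos Nat.card_pos Nat.card_pos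
  apply Nat.eq_of_mul_eq_mul_right hpos
  calc (p.perp W').relIndex (p.perp W) * (Nat.card W * Nat.card (p.perp W'))
      = Nat.card W * ((p.perp W').relIndex (p.perp W) * Nat.card (p.perp W')) := by ring
    _ = Nat.card W * Nat.card (p.perp W) := by rw [h1]
    _ = Nat.card W' * Nat.card (p.perp W') := by rw [h3, h4]
    _ = (W.relIndex W' * Nat.card W) * Nat.card (p.perp W') := by rw [h2]
    _ = W.relIndex W' * (Nat.card W * Nat.card (p.perp W')) := by ring

/-- **the dual of a step is a step** (the types `ℤ/r` and `μ_r` are exchanged). -/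
theorem isStep_perp [Finite V] [Finite V'] {r : ℕ} {W W' : AddSubgroup V} (h : IsStep r W W') :
    IsStep r (p.perp W') (p.perp W) where
  le := p.perp_anti h.le
  idx := by rw [p.relIndex_perp h.le, h.idx]
  type := by
    rcases h.type with hT | hμ
    · right
      intro σ ψ hψ x' hx'
      obtain ⟨x₀, hx₀⟩ := p.exists_chL ψ
      have hx₀W : x₀ ∈ W' := by
        rw [← p.perp_perp W']
        intro y' hy'
        rw [flip_e, ← hx₀, hψ y' hy']
      rw [hx₀, hx₀, smul_right]
      congr 1
      have h1 : σ⁻¹ • x₀ = x₀ + (σ⁻¹ • x₀ - x₀) := by abel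
      rw [h1, add_left, hx' _ (hT σ⁻¹ x₀ hx₀W), mul_one]
    · left
      intro σ x' hx' x hx
      rw [sub_right, smul_right]
      have h1 := hμ σ⁻¹ (p.chR x') (fun w hw => hx' w hw) x hx
      rw [chR_apply, chR_apply] at h1
      rw [h1]
      have h2 : σ (σ⁻¹ (p.e x x')) = p.e x x' := by
        rw [← AlgEquiv.mul_apply, mul_inv_cancel, AlgEquiv.one_apply]
      rw [h2, div_self (p.ne_zero x x')]

/-- **the dual flag.** -/
theorem dual_chain [Finite V] [Finite V'] {r : ℕ} (s : ℕ) (F : ℕ → AddSubgroup V) (h0 : F 0 = ⊥)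
    (hs : F s = ⊤) (hst : ∀ i, GStable (F i)) (hstep : ∀ i < s, IsStep r (F i) (F (i + 1))) :
    ∃ F' : ℕ → AddSubgroup V', F' 0 = ⊥ ∧ F' s = ⊤ ∧ (∀ i, GStable (F' i)) ∧
      ∀ i < s, IsStep r (F' i) (F' (i + 1)) := by
  refine ⟨fun i => p.perp (F (s - i)), ?_, ?_, fun i => p.gstable_perp (hst _), fun i hi => ?_⟩
  · simp only [Nat.sub_zero, hs, perp_top]
  · simp only [Nat.sub_self, h0, perp_bot]
  · have h1 : s - i = (s - (i + 1)) + 1 := by omega
    have h2 := p.isStep_perp (hstep (s - (i + 1)) (by omega))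
    simp only
    rw [h1]
    exact h2

end Pairing

end Fermat.Agent.S15.D
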