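/-
S15, route W (report 339), block D: THEOREM D = "count cocycles".

`X : Ctx` : primes `r ≠ N`, one place above every prime, `cc : GQ` acting by inversion on roots of unity (a complex conjugation),
`S : (GQ → Qb) → Prop` an abstract predicate ("SEP on `I_r`") with the properties `SHyp`.
For a `GQ`-module `V` and subgroups `K C W ≤ V`:
`ZZ X K C W` = smooth 1-cocycles `z : GQ → W` with `z = 0` on inertia at `ℓ ∉ {r, N}`, `z (I_N) ⊆ K`, `z cc ∈ C`, `FlatCoc S z`.
THEOREM D (`Main.lean`): if `V` is finite, smooth, unramified outside `r N` and has a chain of `Sel.IsStep`s then `#ZZ X K C ⊤ ≤ #K * #C`.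
-/
import Fermat.Agent.S15.Sel.Defs

set_option autoImplicit false
set_option linter.unusedSectionVars false

noncomputable section

namespace Fermat.Agent.S15.D

open Fermat.Agent.S15.Sel

/-- flatness of a cocycle at `r`, relative to the predicate `S`. -/
def FlatCoc (S : (GQ → Qb) → Prop) {V : Type*} [AddCommGroup V] (z : GQ → V) : Prop :=
  ∀ ψ : AddChar V Qb, S (fun t => t (ψ (z t⁻¹)))

/-- what is needed of the predicate `S` (= "SEP on the inertia group at `r`"). -/
structure SHyp (P : Places) (r : ℕ) (S : (GQ → Qb) → Prop) : Prop where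
  one : S (fun _ => 1)
  mul : ∀ u u' : GQ → Qb, S u → S u' → S (u * u')
  /-- (C2) a flat Kummer cocycle comes from an element whose valuation is that of a power of `r` -/
  c2 : ∀ α : Qb, α ≠ 0 → S (fun t => α / t α) →
    ∃ n : ℤ, (P.pl r).valuation α = (P.pl r).valuation (r : Qb) ^ n
  /-- (C1) `r` odd: a flat homomorphism to `μ_r` (with trivial action) is unramified at `r` -/
  c1 : r ≠ 2 → ∀ b : GQ → Qb, (∀ s, b s ^ r = 1) → (∀ s t, b (s * t) = b s * b t) →
    S (fun t => t (b t⁻¹)) → ∀ s ∈ Ine (P.pl r), b s = 1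

/-- the context. -/
structure Ctx where
  P : Places
  r : ℕ
  N : ℕ
  hr : r.Prime
  hN : N.Prime
  hrN : r ≠ N
  S : (GQ → Qb) → Prop
  hS : SHyp P r S
  cc : GQ
  hcc : ∀ (z : Qb) (n : ℕ), 0 < n → z ^ n = 1 → cc z = z⁻¹

/-- hypotheses on the module. -/
structure IsMod (X : Ctx) (V : Type*) [AddCommGroup V] [DistribMulAction GQ V] : Prop where
  sm : ∀ x : V, IsSm (dd x)
  ur : ∀ ℓ : ℕ, ℓ.Prime → ℓ ≠ X.r → ℓ ≠ X.N → ∀ σ ∈ Ine (X.P.pl ℓ), ∀ x : V, σ • x = x

section

variable (X : Ctx) {V : Type*} [AddCommGroup V] [DistribMulAction GQ V]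

/-- membership in `ZZ`. -/
structure InZ (K C W : AddSubgroup V) (z : GQ → V) : Prop where
  coc : IsCoc z
  sm : IsSm z
  mem : ∀ σ, z σ ∈ W
  ur : ∀ ℓ : ℕ, ℓ.Prime → ℓ ≠ X.r → ℓ ≠ X.N → ∀ σ ∈ Ine (X.P.pl ℓ), z σ = 0
  atN : ∀ σ ∈ Ine (X.P.pl X.N), z σ ∈ K
  atoo : z X.cc ∈ C
  flat : FlatCoc X.S z

variable {X}

theorem FlatCoc.zero : FlatCoc X.S (0 : GQ → V) := by
  intro ψ
  have : (fun t : GQ => t (ψ ((0 : GQ → V) t⁻¹))) = fun _ => 1 := by
    funext t; simp
  rw [this]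
  exact X.hS.one

theorem FlatCoc.add {z z' : GQ → V} (h : FlatCoc X.S z) (h' : FlatCoc X.S z') :
    FlatCoc X.S (z + z') := by
  intro ψ
  have : (fun t : GQ => t (ψ ((z + z') t⁻¹))) =
      (fun t : GQ => t (ψ (z t⁻¹))) * (fun t : GQ => t (ψ (z' t⁻¹))) := by
    funext t
    simp only [Pi.add_apply, Pi.mul_apply, AddChar.map_add_eq_mul, map_mul]
  rw [this]
  exact X.hS.mul _ _ (h ψ) (h' ψ)

theorem FlatCoc.neg {S : (GQ → Qb) → Prop} {z : GQ → V} (h : FlatCoc S z) : FlatCoc S (-z) := by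
  intro ψ
  have : (fun t : GQ => t (ψ ((-z) t⁻¹))) = (fun t : GQ => t (ψ⁻¹ (z t⁻¹))) := by
    funext t
    simp only [Pi.neg_apply, AddChar.inv_apply]
  rw [this]
  exact h ψ⁻¹

variable (X)

/-- the group of cocycles counted by Theorem D. -/
def ZZ (K C W : AddSubgroup V) : AddSubgroup (GQ → V) where
  carrier := {z | InZ X K C W z}
  zero_mem' :=
    { coc := fun σ τ => by simp
      sm := ⟨∅, fun _ _ => rfl⟩
      mem := fun _ => W.zero_mem
      ur := fun _ _ _ _ _ _ => rfl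
      atN := fun _ _ => K.zero_mem
      atoo := C.zero_mem
      flat := FlatCoc.zero }
  add_mem' := fun {z z'} h h' =>
    { coc := fun σ τ => by
        simp only [Pi.add_apply, h.coc σ τ, h'.coc σ τ, smul_add]; abel
      sm := h.sm.add h'.sm
      mem := fun σ => W.add_mem (h.mem σ) (h'.mem σ)
      ur := fun ℓ h1 h2 h3 σ hσ => by
        simp only [Pi.add_apply, h.ur ℓ h1 h2 h3 σ hσ, h'.ur ℓ h1 h2 h3 σ hσ, add_zero]
      atN := fun σ hσ => K.add_mem (h.atN σ hσ) (h'.atN σ hσ)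
      atoo := C.add_mem h.atoo h'.atoo
      flat := h.flat.add h'.flat }
  neg_mem' := fun {z} h =>
    { coc := fun σ τ => by
        simp only [Pi.neg_apply, h.coc σ τ, smul_neg]; abel
      sm := h.sm.neg
      mem := fun σ => W.neg_mem (h.mem σ)
      ur := fun ℓ h1 h2 h3 σ hσ => by
        simp only [Pi.neg_apply, h.ur ℓ h1 h2 h3 σ hσ, neg_zero]
      atN := fun σ hσ => K.neg_mem (h.atN σ hσ)
      atoo := C.neg_mem h.atoo
      flat := h.flat.neg }

variable {X}

theorem mem_ZZ {K C W : AddSubgroup V} {z : GQ → V} : z ∈ ZZ X K C W ↔ InZ X K C W z := Iff.rfl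

theorem ZZ_mono {K K' C C' W W' : AddSubgroup V} (hK : K ≤ K') (hC : C ≤ C') (hW : W ≤ W') :
    ZZ X K C W ≤ ZZ X K' C' W' :=
  fun _ h => { h with mem := fun σ => hW (h.mem σ), atN := fun σ hσ => hK (h.atN σ hσ),
                      atoo := hC h.atoo }

variable (X)

/-- the statement of Theorem D for `W`. -/
def GoodD (K C W : AddSubgroup V) : Prop :=
  Finite (ZZ X K C W) ∧ Nat.card (ZZ X K C W) ≤ Nat.card ↥(K ⊓ W) * Nat.card ↥(C ⊓ W)

end

end Fermat.Agent.S15.D

end
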