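/-
S15 / block D, leaf KUM2: a global Kummer generator all of whose valuations are "rational" can be normalised to `β ^ r = ± 1`.
-/
import Fermat.Agent.S15.Sel.ArH90
import Fermat.Agent.S15.Sel.ArRat
import Fermat.Agent.S15.Sel.ArVal

set_option autoImplicit false

namespace Fermat.Agent.S15.D

open Fermat.Agent.S15.Sel

/-- PROOF. `σ (α ^ r) = (b σ) ^ r * α ^ r = α ^ r`, so `α ^ r = a` is rational (`exists_rat_of_fixed`), `a ≠ 0`.  For a prime `ℓ`: `v(a) = v(α)^r = v(ℓ)^(r n)`,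
so `padicValRat ℓ a = r n` (`valuation_rat`, `zpow_valuation_injective`, with `P.lies ℓ hℓ`).  `exists_pow_eq_or_neg`: `a = ± b₀ ^ r`.  `β := α / b₀`
(`σ` fixes the rational `b₀`: `AlgEquiv.commutes`). -/
theorem kum2 (P : Places) {r : ℕ} (hr : 0 < r) (b : GQ → Qb) (hb : ∀ σ, b σ ^ r = 1) (α : Qb)
    (hα0 : α ≠ 0) (hα : ∀ σ : GQ, σ α = b σ * α)
    (hloc : ∀ ℓ : ℕ, ℓ.Prime → ∃ n : ℤ, (P.pl ℓ).valuation α = (P.pl ℓ).valuation (ℓ : Qb) ^ n) :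
    ∃ β : Qb, (β ^ r = 1 ∨ β ^ r = -1) ∧ ∀ σ : GQ, σ β = b σ * β := by
  have hfix : ∀ σ : GQ, σ (α ^ r) = α ^ r := by
    intro σ
    rw [map_pow, hα σ, mul_pow, hb σ, one_mul]
  obtain ⟨a, ha⟩ := exists_rat_of_fixed (α ^ r) hfix
  have ha0 : a ≠ 0 := by
    rintro rfl
    rw [map_zero] at ha
    exact pow_ne_zero r hα0 ha.symm
  have hdvd : ∀ ℓ : ℕ, ℓ.Prime → (r : ℤ) ∣ padicValRat ℓ a := by
    intro ℓ hℓ
    obtain ⟨n, hn⟩ := hloc ℓ hℓ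
    have h1 := valuation_rat (P.pl ℓ) hℓ (P.lies ℓ hℓ) a ha0
    rw [ha, map_pow, hn, ← zpow_natCast, ← zpow_mul] at h1
    have h2 := zpow_valuation_injective (P.pl ℓ) hℓ (P.lies ℓ hℓ) h1
    exact ⟨n, by rw [← h2, mul_comm]⟩
  obtain ⟨b₀, hb₀, hab⟩ := exists_pow_eq_or_neg hr a ha0 hdvd
  have hb₀' : algebraMap ℚ Qb b₀ ≠ 0 := by simpa using hb₀
  refine ⟨α / algebraMap ℚ Qb b₀, ?_, fun σ => ?_⟩
  · rw [div_pow, ← ha, ← map_pow]
    have hp : algebraMap ℚ Qb (b₀ ^ r) ≠ 0 := by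
      rw [map_pow]; exact pow_ne_zero _ hb₀'
    rcases hab with h | h
    · left
      rw [h, div_self hp]
    · right
      rw [h, map_neg, neg_div, div_self hp]
  · rw [map_div₀, hα σ, AlgEquiv.commutes, mul_div_assoc]

end Fermat.Agent.S15.D
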