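/-
S15 / block D, leaf BASE-A: a cocycle with values in a simple constituent, unramified outside `r`, flat at `r`, vanishing at `cc`, is zero.
-/
import Fermat.Agent.S15.D.Defs
import Fermat.Agent.S15.D.Kum2
import Fermat.Agent.S15.Sel.ArMink
import Fermat.Agent.S15.Sel.ArChar

set_option autoImplicit false
set_option linter.unusedSectionVars false

namespace Fermat.Agent.S15.D

open Fermat.Agent.S15.Sel

variable {X : Ctx} {V : Type*} [AddCommGroup V] [DistribMulAction GQ V]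

/-- type `ℤ/r`, `r` odd.
PROOF. `z ∈ ZZ X ⊥ ⊥ W`.  By `hT` and `z.coc`, `z` is additive.  `ψ` from `exists_char_bij X.hr W hc`; `b := fun σ => ψ (z σ)` is multiplicative, `b σ ^ r = ψ (r • z σ) = 1`
(`nsmul_eq_zero_of_card`), `X.hS.c1 hodd b _ _ (z.flat ψ)` gives `b = 1` on `Ine (P.pl r)`, i.e. `z = 0` there.  On `Ine (P.pl N)`: `z σ ∈ ⊥`.  Other primes: `z.ur`.
`hom_eq_zero X.P z`. -/
theorem ZZ_bot_of_T [Finite V] {W : AddSubgroup V} (hc : Nat.card W = X.r) (hodd : X.r ≠ 2)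
    (hT : ∀ σ : GQ, ∀ x ∈ W, σ • x = x) : ZZ X ⊥ ⊥ W = ⊥ := by
  rw [AddSubgroup.eq_bot_iff_forall]
  intro z hz
  have hz' : InZ X ⊥ ⊥ W z := hz
  have hadd : ∀ σ τ, z (σ * τ) = z σ + z τ := fun σ τ => by
    rw [hz'.coc σ τ, hT σ _ (hz'.mem τ)]
  obtain ⟨ψ, hψ, -⟩ := exists_char_bij X.hr W hc
  have hr1 : ∀ s ∈ Ine (X.P.pl X.r), ψ (z s) = 1 :=
    X.hS.c1 hodd (fun σ => ψ (z σ))
      (fun s => by
        show ψ (z s) ^ X.r = 1
        rw [← AddChar.map_nsmul_eq_pow, nsmul_eq_zero_of_card W hc (hz'.mem s),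
          AddChar.map_zero_eq_one])
      (fun s t => by
        show ψ (z (s * t)) = ψ (z s) * ψ (z t)
        rw [hadd, AddChar.map_add_eq_mul]) (hz'.flat ψ)
  funext σ
  refine hom_eq_zero X.P z hadd hz'.sm ?_ σ
  intro ℓ hℓ σ hσ
  by_cases h1 : ℓ = X.r
  · subst h1
    exact hψ _ (hz'.mem σ) (hr1 σ hσ)
  · by_cases h2 : ℓ = X.N
    · subst h2
      exact AddSubgroup.mem_bot.1 (hz'.atN σ hσ)
    · exact hz'.ur ℓ hℓ h1 h2 σ hσ

/-- type `μ_r`, any `r`.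
PROOF. `z ∈ ZZ X ⊥ ⊥ W`, `ψ` from `exists_char_bij`, `b σ := ψ (z σ)`: `b (σ τ) = b σ * σ (b τ)` (`hμ`), `b σ ^ r = 1`, `b σ ≠ 0`, smooth.  `h90`: `α ≠ 0`, `σ α = b σ * α`.
Local valuations of `α`: for `ℓ ≠ r` (including `ℓ = N`: `z σ ∈ ⊥`) `b = 1` on `Ine (P.pl ℓ)`, so `α` is fixed: `exists_zpow_of_fixed`.  For `ℓ = r`:
`t (b t⁻¹) = t (t⁻¹ α / α) = α / t α`, so `z.flat ψ` is `S (fun t => α / t α)` (`funext`): `X.hS.c2`.
`kum2`: `β ^ r = ± 1`, `σ β = b σ * β`.  `β ^ (2 r) = 1`, so `cc β = β⁻¹` (`X.hcc`); `z cc ∈ ⊥` gives `cc β = β`; so `β ^ 2 = 1`, `β = ± 1`, `σ β = β`, `b σ = 1`, `z σ = 0`. -/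
theorem ZZ_bot_of_mu [Finite V] {W : AddSubgroup V} (hc : Nat.card W = X.r)
    (hμ : ∀ σ : GQ, ∀ ψ : AddChar V Qb, ∀ x ∈ W, ψ (σ • x) = σ (ψ x)) : ZZ X ⊥ ⊥ W = ⊥ := by
  rw [AddSubgroup.eq_bot_iff_forall]
  intro z hz
  have hz' : InZ X ⊥ ⊥ W z := hz
  obtain ⟨ψ, hψ, -⟩ := exists_char_bij X.hr W hc
  have hbr : ∀ σ, (fun σ => ψ (z σ)) σ ^ X.r = 1 := fun σ => by
    show ψ (z σ) ^ X.r = 1
    rw [← AddChar.map_nsmul_eq_pow, nsmul_eq_zero_of_card W hc (hz'.mem σ),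
      AddChar.map_zero_eq_one]
  have hb0 : ∀ σ, (fun σ => ψ (z σ)) σ ≠ 0 := fun σ => (ψ.val_isUnit _).ne_zero
  have hcoc : ∀ σ τ : GQ, (fun σ => ψ (z σ)) (σ * τ) =
      (fun σ => ψ (z σ)) σ * σ ((fun σ => ψ (z σ)) τ) := fun σ τ => by
    show ψ (z (σ * τ)) = ψ (z σ) * σ (ψ (z τ))
    rw [hz'.coc σ τ, AddChar.map_add_eq_mul, hμ σ ψ _ (hz'.mem τ)]
  have hsm : ∃ s : Finset Qb, ∀ σ : GQ, (∀ z ∈ s, σ z = z) → (fun σ => ψ (z σ)) σ = 1 := by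
    obtain ⟨s, hs⟩ := hz'.sm
    exact ⟨s, fun σ hσ => by
      show ψ (z σ) = 1
      rw [hs σ hσ, AddChar.map_zero_eq_one]⟩
  obtain ⟨α, hα0, hα⟩ := h90 (fun σ => ψ (z σ)) hb0 hcoc hsm
  have hα' : ∀ σ : GQ, σ α = ψ (z σ) * α := hα
  have hloc : ∀ ℓ : ℕ, ℓ.Prime →
      ∃ n : ℤ, (X.P.pl ℓ).valuation α = (X.P.pl ℓ).valuation (ℓ : Qb) ^ n := by
    intro ℓ hℓ
    by_cases h1 : ℓ = X.r
    · subst h1
      apply X.hS.c2 α hα0
      have : (fun t : GQ => α / t α) = fun t : GQ => t (ψ (z t⁻¹)) := by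
        funext t
        have h := hα' t⁻¹
        have h2 : t (t⁻¹ α) = α := by
          rw [← AlgEquiv.mul_apply, mul_inv_cancel, AlgEquiv.one_apply]
        have h3 : α = t (ψ (z t⁻¹)) * t α := by
          rw [← map_mul, ← h, h2]
        have hta : t α ≠ 0 := (map_ne_zero _).2 hα0
        rw [div_eq_iff hta]
        exact h3
      rw [this]
      exact hz'.flat ψ
    · apply exists_zpow_of_fixed (X.P.pl ℓ) hℓ (X.P.lies ℓ hℓ) hα0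
      intro σ hσ
      have hzero : z σ = 0 := by
        by_cases h2 : ℓ = X.N
        · subst h2
          exact AddSubgroup.mem_bot.1 (hz'.atN σ hσ)
        · exact hz'.ur ℓ hℓ h1 h2 σ hσ
      rw [hα' σ, hzero, AddChar.map_zero_eq_one, one_mul]
  obtain ⟨β, hβ, hβσ⟩ := kum2 X.P X.hr.pos (fun σ => ψ (z σ)) hbr α hα0 hα hloc
  have hβσ' : ∀ σ : GQ, σ β = ψ (z σ) * β := hβσ
  have hβ2r : β ^ (2 * X.r) = 1 := by
    rw [mul_comm, pow_mul]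
    rcases hβ with h | h <;> rw [h] <;> simp
  have hcc1 : X.cc β = β⁻¹ :=
    X.hcc β (2 * X.r) (Nat.mul_pos two_pos X.hr.pos) hβ2r
  have hcc2 : X.cc β = β := by
    rw [hβσ' X.cc, AddSubgroup.mem_bot.1 hz'.atoo, AddChar.map_zero_eq_one, one_mul]
  have hβ0 : β ≠ 0 := by
    rintro rfl
    rw [zero_pow (Nat.mul_pos two_pos X.hr.pos).ne'] at hβ2r
    exact zero_ne_one hβ2r
  have hββ : β * β = 1 := by
    have h : β = β⁻¹ := hcc2.symm.trans hcc1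
    calc β * β = β * β⁻¹ := congrArg (β * ·) h
      _ = 1 := mul_inv_cancel₀ hβ0
  have hfix : ∀ σ : GQ, σ β = β := by
    intro σ
    rcases mul_self_eq_one_iff.1 hββ with h | h
    · rw [h, map_one]
    · rw [h, map_neg, map_one]
  funext σ
  apply hψ _ (hz'.mem σ)
  have h := hβσ' σ
  rw [hfix σ] at h
  exact (mul_eq_right₀ hβ0).1 h.symm

/-- for `r = 2` the trivial type is the type `μ`  (`(ψ x) ^ 2 = ψ (2 • x) = 1` so `ψ x = ± 1` is fixed by `σ`). -/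
theorem mu_of_T_two {W : AddSubgroup V} (hc : Nat.card W = 2)
    (hT : ∀ σ : GQ, ∀ x ∈ W, σ • x = x) :
    ∀ σ : GQ, ∀ ψ : AddChar V Qb, ∀ x ∈ W, ψ (σ • x) = σ (ψ x) := by
  intro σ ψ x hx
  rw [hT σ x hx]
  have h2 : ψ x * ψ x = 1 := by
    rw [← sq, ← AddChar.map_nsmul_eq_pow, nsmul_eq_zero_of_card W hc hx, AddChar.map_zero_eq_one]
  rcases mul_self_eq_one_iff.1 h2 with h | h
  · rw [h, map_one]
  · rw [h, map_neg, map_one]

theorem ZZ_bot [Finite V] {W : AddSubgroup V} (hc : Nat.card W = X.r)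
    (htype : (∀ σ : GQ, ∀ x ∈ W, σ • x = x) ∨
      (∀ σ : GQ, ∀ ψ : AddChar V Qb, ∀ x ∈ W, ψ (σ • x) = σ (ψ x))) : ZZ X ⊥ ⊥ W = ⊥ := by
  rcases htype with hT | hμ
  · by_cases h2 : X.r = 2
    · exact ZZ_bot_of_mu hc (mu_of_T_two (hc.trans h2) hT)
    · exact ZZ_bot_of_T hc h2 hT
  · exact ZZ_bot_of_mu hc hμ

end Fermat.Agent.S15.D
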