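/-
S15 / block D, leaf TAME: smooth homomorphisms `I_N → μ_r` (`r ≠ N`) form a cyclic group.
-/
import Fermat.Agent.S15.Sel.Defs
import Fermat.Agent.S56.Lq.TameGen
import Fermat.Agent.S36R.K0.BlockL

set_option autoImplicit false

namespace Fermat.Agent.S15.D

open Fermat.Agent.S15.Sel

/-- a level of `GQ` fixing a finite set of elements. -/
private theorem Tame_exists_level (s : Finset Qb) :
    ∃ U ∈ Fermat.Agent.PT.Lall, ∀ u ∈ U, ∀ z ∈ s, u z = z := by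
  classical
  have hfd : FiniteDimensional ℚ (IntermediateField.adjoin ℚ (s : Set Qb)) :=
    IntermediateField.finiteDimensional_adjoin
      (fun x _ => (Algebra.IsAlgebraic.isAlgebraic x).isIntegral)
  obtain ⟨F', hle, hfd', hn⟩ := Fermat.Agent.PT.exists_normal_level_all
    (IntermediateField.adjoin ℚ (s : Set Qb)) hfd
  refine ⟨F'.fixingSubgroup, ⟨hn, F', hfd', rfl⟩, fun u hu z hz => ?_⟩
  exact (IntermediateField.mem_fixingSubgroup_iff F' u).mp hu z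
    (hle (IntermediateField.subset_adjoin ℚ (s : Set Qb) (Finset.mem_coe.2 hz)))

/-- every smooth hom `I_N → μ_r` is a power of the Kummer character of `β`, `β ^ r = N`. -/
private theorem Tame_aux (A : ValuationSubring Qb) {N r : ℕ} [Fact r.Prime] (hN : N.Prime)
    (hA : A.LiesOverPrime N) (hrN : r ≠ N) {β : Qb} (hβ : β ^ r = (N : Qb)) (b : GQ → Qb)
    (hb : ∀ σ ∈ Ine A, b σ ^ r = 1)
    (hmul : ∀ σ ∈ Ine A, ∀ τ ∈ Ine A, b (σ * τ) = b σ * b τ)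
    (hsm : ∃ s : Finset Qb, ∀ σ : GQ, (∀ z ∈ s, σ z = z) → b σ = 1) :
    ∃ i : ZMod r, ∀ τ ∈ Ine A,
      b τ = ((Fermat.Agent.PT.zetaP r : Qbˣ) : Qb) ^ (i * Fermat.Agent.S56.Lq.kapR r β τ).val := by
  classical
  have hne : NeZero r := ⟨(Fact.out : r.Prime).ne_zero⟩
  set P : Fermat.Agent.PT.Local.Plc := ⟨A, N, hN, hA⟩ with hP
  set E : ZMod r → Qb := fun a : ZMod r => ((Fermat.Agent.PT.zetaP r : Qbˣ) : Qb) ^ a.val with hE
  set c : GQ → ZMod r := fun σ => Function.invFun E (b σ) with hc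
  have hspec : ∀ σ ∈ Ine A, E (c σ) = b σ := by
    intro σ hσ
    obtain ⟨i, hi, hiz⟩ :=
      (Fermat.Agent.S56.Lq.TameKap_prim (p := r)).eq_pow_of_pow_eq_one (hb σ hσ)
    have h2 : ∃ a : ZMod r, E a = b σ :=
      ⟨(i : ZMod r), by
        show ((Fermat.Agent.PT.zetaP r : Qbˣ) : Qb) ^ ((i : ZMod r)).val = b σ
        rw [ZMod.val_cast_of_lt hi, hiz]⟩
    exact Function.invFun_eq h2
  have hli : Fermat.Agent.PT.Local.li P ⊥ = Ine A := Fermat.Agent.S36R.K0L.li_bot P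
  have hadd : ∀ σ ∈ Fermat.Agent.PT.Local.li P ⊥, ∀ τ ∈ Fermat.Agent.PT.Local.li P ⊥,
      c (σ * τ) = c σ + c τ := by
    intro σ hσ τ hτ
    rw [hli] at hσ hτ
    apply Fermat.Agent.S56.Lq.TameKap_inj (p := r)
    show E (c (σ * τ)) = E (c σ + c τ)
    have h1 : E (c σ + c τ) = E (c σ) * E (c τ) := Fermat.Agent.S56.Lq.TameKap_pow_add _ _
    rw [h1, hspec σ hσ, hspec τ hτ, hspec (σ * τ) (mul_mem hσ hτ), hmul σ hσ τ hτ]
  have hsmooth : Fermat.Agent.PT.SmoothOn1 Fermat.Agent.PT.Lall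
      (Fermat.Agent.PT.Local.li P ⊥) c := by
    obtain ⟨s, hs⟩ := hsm
    obtain ⟨U, hU, hfix⟩ := Tame_exists_level s
    refine ⟨U, hU, fun v hv u hu huU => ?_⟩
    rw [hli] at hv hu
    show Function.invFun E (b (v * u)) = Function.invFun E (b v)
    rw [hmul v hv u hu, hs u (hfix u huU), mul_one]
  have hπ : Fermat.Agent.PT.Local.IsUnif P ⊥ ((N : ℕ) : Qb) :=
    Fermat.Agent.S36R.K0L.isUnif_ell P
  obtain ⟨i, hi⟩ := Fermat.Agent.S56.Lq.tame_gen (p := r) P ⊥ (fun h => hrN h.symm) hπ hβ c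
    hsmooth hadd
  refine ⟨i, fun τ hτ => ?_⟩
  have h1 := hi τ (by rw [hli]; exact hτ)
  rw [← hspec τ hτ, h1]

/-- PROOF.  Route 1: `Fermat.Agent.S56.Lq.tame_gen` with `P := ⟨A, N, hN, hA⟩ : PT.Local.Plc`, `K := ⊥` (`li P ⊥ = P.ine`: `S36R.K0L.li_bot` or the PT lemma),
`π := N` (`S36R.K0L.isUnif_ell`), `β ^ r = N`: every smooth hom `c : I_N → ZMod r` is `i * kapR r β`.  Write `b σ = ζ ^ (c σ).val`, `b₀ σ = ζ ^ (c₀ σ).val`
(`ζ` a primitive `r`-th root of unity), `c = i κ`, `c₀ = i₀ κ`, `i₀ ≠ 0` by `h₀`; take `(i / i₀).val`.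
Route 2 (direct): `PT.hilbert90_poincare` for the subgroup `Ine A` gives `γ ≠ 0` with `σ γ = b σ * γ` on `Ine A` (`Ine A` fixes `μ_r`: `S36R.K0L.root_mem_K0`);
`γ ^ r` is fixed by `Ine A`, so `v(γ ^ r) = v(N) ^ n` (`K0L.exists_zpow'`); with `ν ^ r = N`, `δ := γ / ν ^ n` has `δ ^ r` a unit fixed by inertia, hence
`σ δ = δ` (an `r`-th root of unity `≡ 1` mod the maximal ideal is `1` as `N ∤ r`): `b σ = (σ ν / ν) ^ n`.  Same for `b₀`. -/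
theorem tame_cyclic (A : ValuationSubring Qb) {N r : ℕ} (hN : N.Prime) (hA : A.LiesOverPrime N)
    (hr : r.Prime) (hrN : r ≠ N) (b b₀ : GQ → Qb)
    (hb : ∀ σ ∈ Ine A, b σ ^ r = 1) (hb₀ : ∀ σ ∈ Ine A, b₀ σ ^ r = 1)
    (hmul : ∀ σ ∈ Ine A, ∀ τ ∈ Ine A, b (σ * τ) = b σ * b τ)
    (hmul₀ : ∀ σ ∈ Ine A, ∀ τ ∈ Ine A, b₀ (σ * τ) = b₀ σ * b₀ τ)
    (hsm : ∃ s : Finset Qb, ∀ σ : GQ, (∀ z ∈ s, σ z = z) → b σ = 1)
    (hsm₀ : ∃ s : Finset Qb, ∀ σ : GQ, (∀ z ∈ s, σ z = z) → b₀ σ = 1)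
    (h₀ : ∃ σ ∈ Ine A, b₀ σ ≠ 1) : ∃ i : ℕ, ∀ σ ∈ Ine A, b σ = b₀ σ ^ i := by
  have hfact : Fact r.Prime := ⟨hr⟩
  obtain ⟨β, hβ⟩ := IsAlgClosed.exists_pow_nat_eq ((N : ℕ) : Qb) hr.pos
  obtain ⟨i, hi⟩ := Tame_aux A hN hA hrN hβ b hb hmul hsm
  obtain ⟨i₀, hi₀⟩ := Tame_aux A hN hA hrN hβ b₀ hb₀ hmul₀ hsm₀
  have hi₀0 : i₀ ≠ 0 := by
    rintro rfl
    obtain ⟨σ, hσ, hne⟩ := h₀
    apply hne
    rw [hi₀ σ hσ, zero_mul, ZMod.val_zero, pow_zero]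
  refine ⟨(i / i₀ : ZMod r).val, fun σ hσ => ?_⟩
  rw [hi σ hσ, hi₀ σ hσ, ← Fermat.Agent.S56.Lq.TameKap_pow_mul]
  congr 2
  field_simp

/-- inertia at `N` fixes the `r`-th roots of unity, `r ≠ N` (`Fermat.Agent.S36R.K0L.root_mem_K0`). -/
theorem ine_fixes_root (A : ValuationSubring Qb) {N r : ℕ} (hN : N.Prime) (hA : A.LiesOverPrime N)
    (hr : r.Prime) (hrN : r ≠ N) {z : Qb} (hz : z ^ r = 1) : ∀ σ ∈ Ine A, σ z = z := by
  have hnd : ¬ N ∣ r := fun h => hrN ((Nat.prime_dvd_prime_iff_eq hN hr).1 h).symm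
  exact (Fermat.Agent.S36R.K0L.mem_K0_iff (⟨A, N, hN, hA⟩ : Fermat.Agent.PT.Local.Plc) z).1
    (Fermat.Agent.S36R.K0L.root_mem_K0 (⟨A, N, hN, hA⟩ : Fermat.Agent.PT.Local.Plc) hnd hz)

end Fermat.Agent.S15.D
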