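/-
S15 / block D, leaf BASE-C: the ramification at `N` of cocycles with values in a simple constituent is "cyclic".
-/
import Fermat.Agent.S15.D.Defs
import Fermat.Agent.S15.D.Tame
import Fermat.Agent.S15.Sel.ArChar

set_option autoImplicit false
set_option linter.unusedSectionVars false

namespace Fermat.Agent.S15.D

open Fermat.Agent.S15.Sel

variable {X : Ctx} {V : Type*} [AddCommGroup V] [DistribMulAction GQ V]

/-- `I_N` acts trivially on a simple constituent.  (Type `μ`: `ψ (σ • x) = σ (ψ x) = ψ x` by `ine_fixes_root` as `(ψ x) ^ r = 1`; `eq_of_forall_char`.) -/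
theorem ineN_triv [Finite V] {W : AddSubgroup V} (hc : Nat.card W = X.r)
    (htype : (∀ σ : GQ, ∀ x ∈ W, σ • x = x) ∨
      (∀ σ : GQ, ∀ ψ : AddChar V Qb, ∀ x ∈ W, ψ (σ • x) = σ (ψ x))) :
    ∀ σ ∈ Ine (X.P.pl X.N), ∀ x ∈ W, σ • x = x := by
  rcases htype with h | h
  · intro σ _ x hx
    exact h σ x hx
  · intro σ hσ x hx
    apply eq_of_forall_char
    intro ψ
    have hz : (ψ x) ^ X.r = 1 := by
      rw [← AddChar.map_nsmul_eq_pow, nsmul_eq_zero_of_card W hc hx, AddChar.map_zero_eq_one]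
    rw [h σ ψ x hx]
    exact ine_fixes_root (X.P.pl X.N) X.hN (X.P.lies X.N X.hN) X.hr X.hrN hz σ hσ

/-- PROOF. `ψ` from `exists_char_bij`; `b := ψ ∘ z`, `b₀ := ψ ∘ z₀` are multiplicative on `Ine (P.pl N)` (`coc` + `ineN_triv`), `r`-th roots of unity, smooth;
`b₀ σ ≠ 1` for the `σ` of `h₀`.  `tame_cyclic`: `b σ = b₀ σ ^ i = ψ (i • z₀ σ)`; `ψ` is injective on `W`. -/
theorem tame_dep [Finite V] {K C W : AddSubgroup V} (hc : Nat.card W = X.r)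
    (htype : (∀ σ : GQ, ∀ x ∈ W, σ • x = x) ∨
      (∀ σ : GQ, ∀ ψ : AddChar V Qb, ∀ x ∈ W, ψ (σ • x) = σ (ψ x)))
    {z z₀ : GQ → V} (hz : z ∈ ZZ X K C W) (hz₀ : z₀ ∈ ZZ X K C W)
    (h₀ : ∃ σ ∈ Ine (X.P.pl X.N), z₀ σ ≠ 0) :
    ∃ i : ℕ, ∀ σ ∈ Ine (X.P.pl X.N), z σ = i • z₀ σ := by
  obtain ⟨ψ, hinj, -⟩ := exists_char_bij X.hr W hc
  have htriv := ineN_triv hc htype
  have hroot : ∀ x ∈ W, (ψ x) ^ X.r = 1 := by
    intro x hx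
    rw [← AddChar.map_nsmul_eq_pow, nsmul_eq_zero_of_card W hc hx, AddChar.map_zero_eq_one]
  have hmulgen : ∀ {y : GQ → V}, y ∈ ZZ X K C W → ∀ σ ∈ Ine (X.P.pl X.N),
      ∀ τ ∈ Ine (X.P.pl X.N), ψ (y (σ * τ)) = ψ (y σ) * ψ (y τ) := by
    intro y hy σ hσ τ _
    rw [hy.coc σ τ, htriv σ hσ _ (hy.mem τ), AddChar.map_add_eq_mul]
  have hsmgen : ∀ {y : GQ → V}, y ∈ ZZ X K C W →
      ∃ s : Finset Qb, ∀ σ : GQ, (∀ z ∈ s, σ z = z) → ψ (y σ) = 1 := by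
    intro y hy
    obtain ⟨s, hs⟩ := hy.sm
    exact ⟨s, fun σ hσ => by rw [hs σ hσ, AddChar.map_zero_eq_one]⟩
  obtain ⟨σ₀, hσ₀, hne⟩ := h₀
  obtain ⟨i, hi⟩ := tame_cyclic (X.P.pl X.N) X.hN (X.P.lies X.N X.hN) X.hr X.hrN
    (fun σ => ψ (z σ)) (fun σ => ψ (z₀ σ))
    (fun σ _ => hroot _ (hz.mem σ)) (fun σ _ => hroot _ (hz₀.mem σ)) (hmulgen hz) (hmulgen hz₀)
    (hsmgen hz) (hsmgen hz₀) ⟨σ₀, hσ₀, fun h1 => hne (hinj _ (hz₀.mem σ₀) h1)⟩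
  refine ⟨i, fun σ hσ => ?_⟩
  have h1 : ψ (z σ) = ψ (z₀ σ) ^ i := hi σ hσ
  have h2 : ψ (z σ - i • z₀ σ) = 1 := by
    rw [sub_eq_add_neg, AddChar.map_add_eq_mul, AddChar.map_neg_eq_inv, AddChar.map_nsmul_eq_pow,
      ← h1]
    exact mul_inv_cancel₀ (ψ.val_isUnit _).ne_zero
  exact sub_eq_zero.mp (hinj _ (W.sub_mem (hz.mem σ) (W.nsmul_mem (hz₀.mem σ) i)) h2)

end Fermat.Agent.S15.D
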