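/-
S15 / block D, leaf CNT (PURE MATHLIB): two counting lemmas for subgroups of a (possibly infinite) abelian group.
-/
import Mathlib

set_option autoImplicit false

namespace Fermat.Agent.S15.D

/-- PROOF. `g : Z' → B0`, `z ↦ ⟨f z, h1 z⟩` is a hom whose kernel embeds in `Z0` (`h2`).  Fibres of `g` are cosets of the kernel: choose for every
value a preimage; `Z' → Z0 × B0`, `z ↦ (z - s (g z), g z)` is injective.  `Finite.of_injective`, `Nat.card_le_card_of_injective`, `Nat.card_prod`. -/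
theorem count_hom {A B : Type*} [AddCommGroup A] [AddCommGroup B] (f : A →+ B)
    (Z' Z0 : AddSubgroup A) (B0 : AddSubgroup B) [Finite Z0] [Finite B0]
    (h1 : ∀ z ∈ Z', f z ∈ B0) (h2 : ∀ z ∈ Z', f z = 0 → z ∈ Z0) :
    Finite Z' ∧ Nat.card Z' ≤ Nat.card Z0 * Nat.card B0 := by
  classical
  let s : B → A := fun b => if h : ∃ z ∈ Z', f z = b then h.choose else 0
  have hs : ∀ z ∈ Z', s (f z) ∈ Z' ∧ f (s (f z)) = f z := by
    intro z hz
    have h : ∃ z' ∈ Z', f z' = f z := ⟨z, hz, rfl⟩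
    have e : s (f z) = h.choose := dif_pos h
    rw [e]
    exact h.choose_spec
  have hmem : ∀ z : Z', (z : A) - s (f z) ∈ Z0 := by
    intro z
    obtain ⟨h3, h4⟩ := hs z z.2
    exact h2 _ (Z'.sub_mem z.2 h3) (by rw [map_sub, h4, sub_self])
  let φ : Z' → Z0 × B0 := fun z => (⟨(z : A) - s (f z), hmem z⟩, ⟨f z, h1 z z.2⟩)
  have hφ : Function.Injective φ := by
    intro z z' h
    have e1 : f z = f z' := congrArg (fun x : Z0 × B0 => (x.2 : B)) h
    have e2 : (z : A) - s (f z) = (z' : A) - s (f z') :=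
      congrArg (fun x : Z0 × B0 => (x.1 : A)) h
    rw [e1] at e2
    exact Subtype.ext (sub_left_injective e2)
  refine ⟨Finite.of_injective φ hφ, ?_⟩
  rw [← Nat.card_prod]
  exact Nat.card_le_card_of_injective φ hφ

/-- PROOF. `Z0 × U → Z0 ⊔ U`, `(a, u) ↦ a + u` is onto (`AddSubgroup.mem_sup`), so `Z0 ⊔ U` is finite of cardinality `≤ #Z0 * #U`; `Z' ≤ Z0 ⊔ U`
(`AddSubgroup.inclusion` injective). -/
theorem count_sup {A : Type*} [AddCommGroup A] (Z' Z0 U : AddSubgroup A) [Finite Z0] [Finite U]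
    (h : Z' ≤ Z0 ⊔ U) : Finite Z' ∧ Nat.card Z' ≤ Nat.card Z0 * Nat.card U := by
  let ψ : Z0 × U → (Z0 ⊔ U : AddSubgroup A) := fun x =>
    ⟨(x.1 : A) + (x.2 : A), AddSubgroup.add_mem_sup x.1.2 x.2.2⟩
  have hψ : Function.Surjective ψ := by
    rintro ⟨y, hy⟩
    obtain ⟨a, ha, u, hu, rfl⟩ := AddSubgroup.mem_sup.1 hy
    exact ⟨(⟨a, ha⟩, ⟨u, hu⟩), rfl⟩
  have hfin : Finite (Z0 ⊔ U : AddSubgroup A) := Finite.of_surjective ψ hψ
  have hinj := AddSubgroup.inclusion_injective h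
  refine ⟨Finite.of_injective _ hinj, ?_⟩
  rw [← Nat.card_prod]
  exact (Nat.card_le_card_of_injective _ hinj).trans (Nat.card_le_card_of_surjective ψ hψ)

/-- a cyclic group generated by an element killed by `r` has at most `r` elements. -/
theorem card_zmultiples_le {A : Type*} [AddCommGroup A] {r : ℕ} (hr : 0 < r) (z : A)
    (hz : r • z = 0) : Finite (AddSubgroup.zmultiples z) ∧ Nat.card (AddSubgroup.zmultiples z) ≤ r := by
  refine ⟨finite_zmultiples.2 (isOfFinAddOrder_iff_nsmul_eq_zero.2 ⟨r, hr, hz⟩), ?_⟩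
  rw [Nat.card_zmultiples]
  exact Nat.le_of_dvd hr (addOrderOf_dvd_of_nsmul_eq_zero hz)

end Fermat.Agent.S15.D
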