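/-
S15 / block D: Theorem D for a simple constituent.
-/
import Fermat.Agent.S15.D.BaseA
import Fermat.Agent.S15.D.BaseC
import Fermat.Agent.S15.D.Count

set_option autoImplicit false
set_option linter.unusedSectionVars false

namespace Fermat.Agent.S15.D

open Fermat.Agent.S15.Sel

variable {X : Ctx} {V : Type*} [AddCommGroup V] [DistribMulAction GQ V]

/-- (b) -/
theorem count_C [Finite V] {C W : AddSubgroup V} (hc : Nat.card W = X.r)
    (htype : (∀ σ : GQ, ∀ x ∈ W, σ • x = x) ∨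
      (∀ σ : GQ, ∀ ψ : AddChar V Qb, ∀ x ∈ W, ψ (σ • x) = σ (ψ x))) :
    Finite (ZZ X ⊥ C W) ∧ Nat.card (ZZ X ⊥ C W) ≤ Nat.card ↥(C ⊓ W) := by
  have hbot : ZZ X (⊥ : AddSubgroup V) ⊥ W = ⊥ := ZZ_bot hc htype
  have := count_hom (Pi.evalAddMonoidHom (fun _ : GQ => V) X.cc) (ZZ X ⊥ C W) (⊥ : AddSubgroup (GQ → V))
    (C ⊓ W) (fun z hz => ⟨hz.atoo, hz.mem _⟩) (fun z hz h0 => by
      rw [← hbot]
      exact { hz with atoo := AddSubgroup.mem_bot.2 h0 })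
  refine ⟨this.1, this.2.trans ?_⟩
  simp

/-- (c) -/
theorem count_K [Finite V] {K C W : AddSubgroup V} (hc : Nat.card W = X.r)
    (htype : (∀ σ : GQ, ∀ x ∈ W, σ • x = x) ∨
      (∀ σ : GQ, ∀ ψ : AddChar V Qb, ∀ x ∈ W, ψ (σ • x) = σ (ψ x))) :
    Finite (ZZ X K C W) ∧ Nat.card (ZZ X K C W) ≤ Nat.card (ZZ X ⊥ C W) * Nat.card ↥(K ⊓ W) := by
  have hfin : Finite (ZZ X ⊥ C W) := (count_C hc htype).1
  have hpos : 0 < Nat.card ↥(K ⊓ W) := Nat.card_pos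
  by_cases hall : ∀ z ∈ ZZ X K C W, ∀ σ ∈ Ine (X.P.pl X.N), z σ = 0
  · have hle : ZZ X K C W ≤ ZZ X ⊥ C W := fun z hz =>
      { hz with atN := fun σ hσ => AddSubgroup.mem_bot.2 (hall z hz σ hσ) }
    have h1 : Finite (ZZ X K C W) := Finite.of_injective _ (AddSubgroup.inclusion_injective hle)
    refine ⟨h1, ?_⟩
    calc Nat.card (ZZ X K C W) ≤ Nat.card (ZZ X ⊥ C W) :=
          Nat.card_le_card_of_injective _ (AddSubgroup.inclusion_injective hle)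
      _ ≤ Nat.card (ZZ X ⊥ C W) * Nat.card ↥(K ⊓ W) := Nat.le_mul_of_pos_right _ hpos
  · push Not at hall
    obtain ⟨z₀, hz₀, σ₀, hσ₀, hne⟩ := hall
    -- `W ≤ K`
    have hWK : W ≤ K := by
      rcases inf_eq_bot_or_le X.hr W K hc with h | h
      · exfalso
        apply hne
        have : z₀ σ₀ ∈ W ⊓ K := ⟨hz₀.mem σ₀, hz₀.atN σ₀ hσ₀⟩
        rw [h] at this
        exact AddSubgroup.mem_bot.1 this
      · exact h
    have hKW : Nat.card ↥(K ⊓ W) = X.r := by rw [inf_eq_right.2 hWK, hc]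
    have hr0 : X.r • z₀ = 0 := by
      funext σ
      exact nsmul_eq_zero_of_card W hc (hz₀.mem σ)
    obtain ⟨hU, hUc⟩ := card_zmultiples_le X.hr.pos z₀ hr0
    have hle : ZZ X K C W ≤ ZZ X ⊥ C W ⊔ AddSubgroup.zmultiples z₀ := by
      intro z hz
      obtain ⟨i, hi⟩ := tame_dep hc htype hz hz₀ ⟨σ₀, hσ₀, hne⟩
      have h1 : z - i • z₀ ∈ ZZ X ⊥ C W := by
        have h2 : z - i • z₀ ∈ ZZ X K C W := (ZZ X K C W).sub_mem hz ((ZZ X K C W).nsmul_mem hz₀ i)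
        exact { h2 with atN := fun σ hσ => AddSubgroup.mem_bot.2 (by
                  simp only [Pi.sub_apply, Pi.smul_apply, hi σ hσ, sub_self]) }
      have h3 : i • z₀ ∈ AddSubgroup.zmultiples z₀ :=
        (AddSubgroup.zmultiples z₀).nsmul_mem (AddSubgroup.mem_zmultiples z₀) i
      have h4 : z = (z - i • z₀) + i • z₀ := by abel
      rw [h4]
      exact AddSubgroup.add_mem_sup h1 h3
    obtain ⟨h5, h6⟩ := count_sup (ZZ X K C W) (ZZ X ⊥ C W) (AddSubgroup.zmultiples z₀) hle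
    refine ⟨h5, h6.trans ?_⟩
    rw [hKW]
    exact Nat.mul_le_mul_left _ hUc

/-- **Theorem D for a simple constituent.** -/
theorem baseD [Finite V] (K C : AddSubgroup V) {W : AddSubgroup V} (hc : Nat.card W = X.r)
    (htype : (∀ σ : GQ, ∀ x ∈ W, σ • x = x) ∨
      (∀ σ : GQ, ∀ ψ : AddChar V Qb, ∀ x ∈ W, ψ (σ • x) = σ (ψ x))) : GoodD X K C W := by
  obtain ⟨h1, h2⟩ := count_K (K := K) (C := C) hc htype
  refine ⟨h1, h2.trans ?_⟩
  rw [mul_comm]
  exact Nat.mul_le_mul_left _ (count_C hc htype).2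

end Fermat.Agent.S15.D
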