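/-
S15 / block D, leaf D4: `#(K ⊓ W') = #(K ⊓ W) * #π(K ⊓ W')`.
-/
import Fermat.Agent.S15.Sel.Defs

set_option autoImplicit false
set_option linter.unusedSectionVars false

namespace Fermat.Agent.S15.D

open Fermat.Agent.S15.Sel

variable {V Vq : Type*} [AddCommGroup V] [DistribMulAction GQ V] [AddCommGroup Vq]
  [DistribMulAction GQ Vq] {W : AddSubgroup V}

/-- PROOF. `q.π` restricted to `H := K ⊓ W'` is onto `H.map q.π`, with kernel `{x ∈ H | x ∈ W} = K ⊓ W` (`q.ker`, `hle`).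
`AddSubgroup.card_eq_card_quotient_mul_card_addSubgroup` + `QuotientAddGroup.quotientKerEquivRange`, or count fibres. -/
theorem card_inf_step [Finite V] (q : QMap V Vq W) {W' : AddSubgroup V} (hle : W ≤ W')
    (K : AddSubgroup V) :
    Nat.card ↥(K ⊓ W') = Nat.card ↥(K ⊓ W) * Nat.card ↥((K ⊓ W').map q.π) := by
  have hker : q.π.ker = W := by
    ext x
    rw [AddMonoidHom.mem_ker, q.ker]
  have hinf : W ⊓ (K ⊓ W') = K ⊓ W := by
    ext x
    constructor
    · rintro ⟨h1, h2, -⟩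
      exact ⟨h2, h1⟩
    · rintro ⟨h1, h2⟩
      exact ⟨h2, h1, hle h2⟩
  have h1 := AddSubgroup.relIndex_mul_relIndex ⊥ (W ⊓ (K ⊓ W')) (K ⊓ W') bot_le inf_le_right
  rw [AddSubgroup.relIndex_bot_left, AddSubgroup.relIndex_bot_left,
    AddSubgroup.inf_relIndex_right, hinf] at h1
  rw [← h1, ← AddSubgroup.relIndex_ker, hker]

end Fermat.Agent.S15.D
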