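/-
S15 / block D: push forward of the cocycles of Theorem D along `q : V → V ⧸ W`.
-/
import Fermat.Agent.S15.D.Defs
import Fermat.Agent.S15.Sel.Quot

set_option autoImplicit false
set_option linter.unusedSectionVars false

namespace Fermat.Agent.S15.D

open Fermat.Agent.S15.Sel

variable {X : Ctx} {V Vq : Type*} [AddCommGroup V] [DistribMulAction GQ V] [AddCommGroup Vq]
  [DistribMulAction GQ Vq] {W : AddSubgroup V}

theorem IsMod.push (hM : IsMod X V) (q : QMap V Vq W) : IsMod X Vq where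
  sm := fun x => by
    obtain ⟨x, rfl⟩ := q.surj x
    obtain ⟨s, hs⟩ := hM.sm x
    exact ⟨s, fun σ hσ => by rw [q.dd, hs σ hσ, map_zero]⟩
  ur := fun ℓ h1 h2 h3 σ hσ x => by
    obtain ⟨x, rfl⟩ := q.surj x
    rw [← q.equiv, hM.ur ℓ h1 h2 h3 σ hσ x]

theorem FlatCoc.comp {S : (GQ → Qb) → Prop} {z : GQ → V} (h : FlatCoc S z) (f : V →+ Vq) :
    FlatCoc S (fun σ => f (z σ)) := fun ψ => h (ψ.compAddMonoidHom f)

/-- (D1) -/
theorem comp_mem_ZZ (q : QMap V Vq W) {K C W' : AddSubgroup V} {z : GQ → V}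
    (hz : z ∈ ZZ X K C W') :
    (AddMonoidHom.compLeft q.π GQ) z ∈
      ZZ X ((K ⊓ W').map q.π) ((C ⊓ W').map q.π) (W'.map q.π) :=
  { coc := fun σ τ => by
      simp only [AddMonoidHom.compLeft_apply, Function.comp_apply, hz.coc σ τ, map_add, q.equiv]
    sm := by
      obtain ⟨s, hs⟩ := hz.sm
      exact ⟨s, fun σ hσ => by
        simp only [AddMonoidHom.compLeft_apply, Function.comp_apply, hs σ hσ, map_zero]⟩
    mem := fun σ => ⟨z σ, hz.mem σ, rfl⟩
    ur := fun ℓ h1 h2 h3 σ hσ => by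
      simp only [AddMonoidHom.compLeft_apply, Function.comp_apply, hz.ur ℓ h1 h2 h3 σ hσ, map_zero]
    atN := fun σ hσ => ⟨z σ, ⟨hz.atN σ hσ, hz.mem σ⟩, rfl⟩
    atoo := ⟨z X.cc, ⟨hz.atoo, hz.mem _⟩, rfl⟩
    flat := hz.flat.comp q.π }

/-- (D2) -/
theorem mem_ZZ_of_comp_eq_zero (q : QMap V Vq W) {K C W' : AddSubgroup V} {z : GQ → V}
    (hz : z ∈ ZZ X K C W') (h0 : (AddMonoidHom.compLeft q.π GQ) z = 0) : z ∈ ZZ X K C W :=
  { hz with mem := fun σ => (q.ker _).1 (congrFun h0 σ) }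

end Fermat.Agent.S15.D
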