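/-
S15 / block D: **THEOREM D** (report 339 (2)): `#ZZ X K C ⊤ ≤ #K * #C`.
-/
import Fermat.Agent.S15.D.Base
import Fermat.Agent.S15.D.Push
import Fermat.Agent.S15.D.CardInf
import Fermat.Agent.S15.Sel.QuotEx
import Fermat.Agent.S15.Sel.Index

set_option autoImplicit false
set_option linter.unusedSectionVars false

namespace Fermat.Agent.S15.D

open Fermat.Agent.S15.Sel

universe u

variable {X : Ctx} {V : Type u} [AddCommGroup V] [DistribMulAction GQ V]

theorem goodD_bot (K C : AddSubgroup V) : GoodD X K C ⊥ := by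
  have h : ZZ X K C ⊥ = ⊥ := by
    rw [eq_bot_iff]
    intro z hz
    rw [AddSubgroup.mem_bot]
    funext σ
    exact AddSubgroup.mem_bot.1 (hz.mem σ)
  unfold GoodD
  rw [h]
  refine ⟨inferInstance, ?_⟩
  simp

/-- **the induction step.** -/
theorem goodD_step [Finite V] (K C : AddSubgroup V) {W W' : AddSubgroup V} (hW : GStable W)
    (hs : IsStep X.r W W') (hg : GoodD X K C W) : GoodD X K C W' := by
  obtain ⟨Vq, _, _, ⟨q⟩⟩ := exists_qmap W hW
  have : Finite Vq := q.finite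
  have hc : Nat.card (W'.map q.π) = X.r := by rw [q.card_map hs.le, hs.idx]
  have htype : (∀ σ : GQ, ∀ x ∈ W'.map q.π, σ • x = x) ∨
      (∀ σ : GQ, ∀ ψ : AddChar Vq Qb, ∀ x ∈ W'.map q.π, ψ (σ • x) = σ (ψ x)) := by
    rcases hs.type with h | h
    · left
      rintro σ _ ⟨x, hx, rfl⟩
      rw [← q.equiv, ← sub_eq_zero, ← map_sub, q.ker]
      exact h σ x hx
    · right
      rintro σ ψ _ ⟨x, hx, rfl⟩
      have := h σ (ψ.compAddMonoidHom q.π) (fun w hw => by
        rw [AddChar.compAddMonoidHom_apply, (q.ker w).2 hw, AddChar.map_zero_eq_one]) x hx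
      simpa only [AddChar.compAddMonoidHom_apply, q.equiv] using this
  obtain ⟨hb1, hb2⟩ := baseD (X := X) ((K ⊓ W').map q.π) ((C ⊓ W').map q.π) hc htype
  obtain ⟨hg1, hg2⟩ := hg
  obtain ⟨h1, h2⟩ := count_hom (AddMonoidHom.compLeft q.π GQ) (ZZ X K C W') (ZZ X K C W)
    (ZZ X ((K ⊓ W').map q.π) ((C ⊓ W').map q.π) (W'.map q.π))
    (fun z hz => comp_mem_ZZ q hz) (fun z hz h0 => mem_ZZ_of_comp_eq_zero q hz h0)
  refine ⟨h1, h2.trans ?_⟩
  have hK : (K ⊓ W').map q.π ⊓ W'.map q.π = (K ⊓ W').map q.π :=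
    inf_eq_left.2 (AddSubgroup.map_mono inf_le_right)
  have hC : (C ⊓ W').map q.π ⊓ W'.map q.π = (C ⊓ W').map q.π :=
    inf_eq_left.2 (AddSubgroup.map_mono inf_le_right)
  rw [hK, hC] at hb2
  rw [card_inf_step q hs.le K, card_inf_step q hs.le C]
  calc Nat.card (ZZ X K C W) * Nat.card (ZZ X ((K ⊓ W').map q.π) ((C ⊓ W').map q.π) (W'.map q.π))
      ≤ (Nat.card ↥(K ⊓ W) * Nat.card ↥(C ⊓ W)) *
          (Nat.card ↥((K ⊓ W').map q.π) * Nat.card ↥((C ⊓ W').map q.π)) := Nat.mul_le_mul hg2 hb2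
    _ = _ := by ring

/-- **THEOREM D.** -/
theorem theoremD [Finite V] (K C : AddSubgroup V) (s : ℕ) (F : ℕ → AddSubgroup V) (h0 : F 0 = ⊥)
    (hs : F s = ⊤) (hst : ∀ i, GStable (F i)) (hstep : ∀ i < s, IsStep X.r (F i) (F (i + 1))) :
    Finite (ZZ X K C ⊤) ∧ Nat.card (ZZ X K C ⊤) ≤ Nat.card K * Nat.card C := by
  have key : ∀ i ≤ s, GoodD X K C (F i) := by
    intro i
    induction i with
    | zero => intro _; rw [h0]; exact goodD_bot K C
    | succ i ih =>
      intro hi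
      exact goodD_step K C (hst i) (hstep i hi) (ih (Nat.le_of_succ_le hi))
  have := key s le_rfl
  rw [hs] at this
  unfold GoodD at this
  rwa [inf_top_eq, inf_top_eq] at this

end Fermat.Agent.S15.D
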