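/-
S15 / block D: **COROLLARY D'** (report 339 (3)): `[ZZ X K ((cc-1)V) ⊤ : B¹(V)] ≤ #V^G * #V'^G * #V'[e0]`.
-/
import Fermat.Agent.S15.D.Main
import Fermat.Agent.S15.D.Dual
import Fermat.Agent.S15.Sel.Cor

set_option autoImplicit false
set_option linter.unusedSectionVars false

noncomputable section

namespace Fermat.Agent.S15.D

open Fermat.Agent.S15.Sel

/-- the invariants `V^G`. -/
def Inv (V : Type*) [AddCommGroup V] [DistribMulAction GQ V] : AddSubgroup V where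
  carrier := {x | ∀ σ : GQ, σ • x = x}
  zero_mem' := fun σ => smul_zero σ
  add_mem' := fun {a b} ha hb σ => by rw [smul_add, ha σ, hb σ]
  neg_mem' := fun {a} ha σ => by rw [smul_neg, ha σ]

/-- the `m`-torsion `V[m]`. -/
def Tor (V : Type*) [AddCommGroup V] (m : ℕ) : AddSubgroup V := (nsmulAddMonoidHom m : V →+ V).ker

theorem mem_Tor {V : Type*} [AddCommGroup V] {m : ℕ} {x : V} : x ∈ Tor V m ↔ m • x = 0 := Iff.rfl

/-- `(cc - 1) V`. -/
def Cm (X : Ctx) (V : Type*) [AddCommGroup V] [DistribMulAction GQ V] : AddSubgroup V where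
  carrier := {y | ∃ x : V, y = X.cc • x - x}
  zero_mem' := ⟨0, by simp⟩
  add_mem' := by
    rintro _ _ ⟨x, rfl⟩ ⟨y, rfl⟩
    exact ⟨x + y, by rw [smul_add]; abel⟩
  neg_mem' := by
    rintro _ ⟨x, rfl⟩
    exact ⟨-x, by rw [smul_neg]; abel⟩

universe u v

variable {X : Ctx} {V : Type u} [AddCommGroup V] [DistribMulAction GQ V] {V' : Type v}
  [AddCommGroup V'] [DistribMulAction GQ V']

/-- `dd` as a homomorphism. -/
def ddHom (V : Type*) [AddCommGroup V] [DistribMulAction GQ V] : V →+ (GQ → V) where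
  toFun := dd
  map_zero' := dd_zero
  map_add' := dd_add

theorem card_Bd [Finite V] : Nat.card (Bd V) * Nat.card (Inv V) = Nat.card V := by
  have h1 : (ddHom V).range = Bd V := by
    ext c
    constructor
    · rintro ⟨x, rfl⟩; exact ⟨x, rfl⟩
    · rintro ⟨x, rfl⟩; exact ⟨x, rfl⟩
  have h2 : (ddHom V).ker = Inv V := by
    ext x
    rw [AddMonoidHom.mem_ker]
    constructor
    · intro h σ
      have := congrFun h σ
      exact sub_eq_zero.1 this
    · intro h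
      funext σ
      exact sub_eq_zero.2 (h σ)
  rw [← h1, ← h2, ← AddSubgroup.index_ker, mul_comm, AddSubgroup.card_mul_index]

theorem isCoc_dd (x : V) : IsCoc (dd x) := by
  intro σ τ
  simp only [dd_apply, mul_smul, smul_sub]
  abel

theorem Bd_le_ZZ (hV : IsMod X V) (K : AddSubgroup V)
    (hK : ∀ σ ∈ Ine (X.P.pl X.N), ∀ x : V, σ • x - x ∈ K)
    (hfl : ∀ x : V, FlatCoc X.S (dd x)) : Bd V ≤ ZZ X K (Cm X V) ⊤ := by
  rintro _ ⟨x, rfl⟩
  exact
    { coc := isCoc_dd x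
      sm := hV.sm x
      mem := fun _ => AddSubgroup.mem_top _
      ur := fun ℓ h1 h2 h3 σ hσ => sub_eq_zero.2 (hV.ur ℓ h1 h2 h3 σ hσ x)
      atN := fun σ hσ => hK σ hσ x
      atoo := ⟨x, rfl⟩
      flat := hfl x }

theorem Pairing.pow_card [Finite V] (p : Pairing V V') (x : V) (x' : V') :
    p.e x x' ^ Nat.card V = 1 := by
  rw [← p.nsmul_left, card_nsmul_eq_zero', p.zero_left]

/-- `(cc - 1) V ⊥ (cc - 1) V'`. -/
theorem Pairing.e_Cm [Finite V] (p : Pairing V V') (hcc : X.cc * X.cc = 1) :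
    ∀ x ∈ Cm X V, ∀ x' ∈ Cm X V', p.e x x' = 1 := by
  rintro _ ⟨x, rfl⟩ _ ⟨x', rfl⟩
  have hinv : ∀ (a : V) (a' : V'), X.cc (p.e a a') = (p.e a a')⁻¹ := fun a a' =>
    X.hcc _ (Nat.card V) Nat.card_pos (p.pow_card a a')
  have hci : X.cc⁻¹ = X.cc := inv_eq_of_mul_eq_one_left hcc
  have h1 : p.e (X.cc • x) (X.cc • x') = (p.e x x')⁻¹ := by rw [p.equiv, hinv]
  have h2 : p.e x (X.cc • x') = (p.e (X.cc • x) x')⁻¹ := by rw [p.smul_right, hci, hinv]
  rw [p.sub_left, p.sub_right, p.sub_right, h1, h2]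
  have ha := p.ne_zero x x'
  have hb := p.ne_zero (X.cc • x) x'
  field_simp

theorem card_le_map_mul_Tor [Finite V] (K : AddSubgroup V) (m : ℕ) :
    Nat.card K ≤ Nat.card (K.map (nsmulAddMonoidHom m : V →+ V)) * Nat.card (Tor V m) := by
  have := (count_hom (nsmulAddMonoidHom m : V →+ V) K (Tor V m) (K.map (nsmulAddMonoidHom m))
    (fun z hz => ⟨z, hz, rfl⟩) (fun z _ h => h)).2
  rwa [mul_comm] at this

/-- **COROLLARY D'.** -/
theorem corD [Finite V] [Finite V'] (hcc : X.cc * X.cc = 1) (p : Pairing V V')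
    (hV : IsMod X V) (hV' : IsMod X V')
    (s : ℕ) (F : ℕ → AddSubgroup V) (h0 : F 0 = ⊥) (hs : F s = ⊤) (hst : ∀ i, GStable (F i))
    (hstep : ∀ i < s, IsStep X.r (F i) (F (i + 1)))
    (K : AddSubgroup V) (K' : AddSubgroup V')
    (hK : ∀ σ ∈ Ine (X.P.pl X.N), ∀ x : V, σ • x - x ∈ K)
    (hK' : ∀ σ ∈ Ine (X.P.pl X.N), ∀ x : V', σ • x - x ∈ K')
    (e0 : ℕ) (he0 : ∀ x ∈ K, ∀ x' ∈ K', p.e x x' ^ e0 = 1)
    (hfl : ∀ x : V, FlatCoc X.S (dd x)) (hfl' : ∀ x : V', FlatCoc X.S (dd x)) :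
    (Bd V).relIndex (ZZ X K (Cm X V) ⊤) ≠ 0 ∧
      (Bd V).relIndex (ZZ X K (Cm X V) ⊤) ≤
        Nat.card (Inv V) * Nat.card (Inv V') * Nat.card (Tor V' e0) := by
  obtain ⟨hf, hD⟩ := theoremD (X := X) K (Cm X V) s F h0 hs hst hstep
  obtain ⟨F', h0', hs', hst', hstep'⟩ := p.dual_chain s F h0 hs hst hstep
  obtain ⟨hf', hD'⟩ := theoremD (X := X) K' (Cm X V') s F' h0' hs' hst' hstep'
  have hB := Bd_le_ZZ hV K hK hfl
  have hB' := Bd_le_ZZ hV' K' hK' hfl'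
  have hidx := relIndex_mul_card' hB
  have hZpos : 0 < Nat.card (ZZ X K (Cm X V) ⊤) := Nat.card_pos
  have hne : (Bd V).relIndex (ZZ X K (Cm X V) ⊤) ≠ 0 := by
    intro h
    rw [h, zero_mul] at hidx
    omega
  refine ⟨hne, ?_⟩
  have hcB' : Nat.card (Bd V') ≤ Nat.card (ZZ X K' (Cm X V') ⊤) := AddSubgroup.card_le_of_le hB'
  have hKK : Nat.card K * Nat.card (K'.map (nsmulAddMonoidHom e0 : V' →+ V')) ≤ Nat.card V := by
    apply p.card_mul_le
    rintro x hx _ ⟨x', hx', rfl⟩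
    rw [nsmulAddMonoidHom_apply, p.nsmul_right, he0 x hx x' hx']
  have hCC : Nat.card (Cm X V) * Nat.card (Cm X V') ≤ Nat.card V := p.card_mul_le _ _ (p.e_Cm hcc)
  have hT := card_le_map_mul_Tor K' e0
  have hc := card_Bd (V := V)
  have hc' := card_Bd (V := V')
  have hVV := p.card_eq
  have hVpos : 0 < Nat.card V := Nat.card_pos
  set a := (Bd V).relIndex (ZZ X K (Cm X V) ⊤)
  set z := Nat.card (ZZ X K (Cm X V) ⊤)
  set z' := Nat.card (ZZ X K' (Cm X V') ⊤)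
  set b := Nat.card (Bd V)
  set b' := Nat.card (Bd V')
  set i := Nat.card (Inv V)
  set i' := Nat.card (Inv V')
  set k := Nat.card K
  set k' := Nat.card K'
  set m' := Nat.card (K'.map (nsmulAddMonoidHom e0 : V' →+ V'))
  set t := Nat.card (Tor V' e0)
  set c := Nat.card (Cm X V)
  set c' := Nat.card (Cm X V')
  set n := Nat.card V
  apply Nat.le_of_mul_le_mul_right _ (Nat.mul_pos hVpos hVpos)
  calc a * (n * n) = (a * b) * i * (b' * i') := by rw [hc', ← hVV, mul_assoc a b i, hc]; ring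
    _ = z * b' * (i * i') := by rw [hidx]; ring
    _ ≤ (k * c) * (k' * c') * (i * i') :=
        Nat.mul_le_mul_right _ (Nat.mul_le_mul hD (hcB'.trans hD'))
    _ ≤ (k * c) * ((m' * t) * c') * (i * i') :=
        Nat.mul_le_mul_right _ (Nat.mul_le_mul_left _ (Nat.mul_le_mul_right _ hT))
    _ = (k * m') * (c * c') * (i * i' * t) := by ring
    _ ≤ n * n * (i * i' * t) := Nat.mul_le_mul_right _ (Nat.mul_le_mul hKK hCC)
    _ = i * i' * t * (n * n) := by ring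

/-- the form used by the consumers: any subgroup of `ZZ`. -/
theorem corD' [Finite V] [Finite V'] (hcc : X.cc * X.cc = 1) (p : Pairing V V')
    (hV : IsMod X V) (hV' : IsMod X V')
    (s : ℕ) (F : ℕ → AddSubgroup V) (h0 : F 0 = ⊥) (hs : F s = ⊤) (hst : ∀ i, GStable (F i))
    (hstep : ∀ i < s, IsStep X.r (F i) (F (i + 1)))
    (K : AddSubgroup V) (K' : AddSubgroup V')
    (hK : ∀ σ ∈ Ine (X.P.pl X.N), ∀ x : V, σ • x - x ∈ K)
    (hK' : ∀ σ ∈ Ine (X.P.pl X.N), ∀ x : V', σ • x - x ∈ K')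
    (e0 : ℕ) (he0 : ∀ x ∈ K, ∀ x' ∈ K', p.e x x' ^ e0 = 1)
    (hfl : ∀ x : V, FlatCoc X.S (dd x)) (hfl' : ∀ x : V', FlatCoc X.S (dd x))
    (𝒦 : AddSubgroup (GQ → V)) (h𝒦 : 𝒦 ≤ ZZ X K (Cm X V) ⊤) :
    (Bd V).relIndex 𝒦 ≠ 0 ∧
      (Bd V).relIndex 𝒦 ≤ Nat.card (Inv V) * Nat.card (Inv V') * Nat.card (Tor V' e0) := by
  obtain ⟨h1, h2⟩ := corD hcc p hV hV' s F h0 hs hst hstep K K' hK hK' e0 he0 hfl hfl'
  exact ⟨fun h => h1 (AddSubgroup.relIndex_eq_zero_of_le_right h𝒦 h),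
    (AddSubgroup.relIndex_le_of_le_right h𝒦 h1).trans h2⟩

end Fermat.Agent.S15.D

end
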