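/-
S15 / block D: existence of a complex conjugation, and the context `Ctx` built from it.
-/
import Fermat.Agent.S15.D.Defs
import Fermat.Agent.GAL.Cyclo

set_option autoImplicit false

namespace Fermat.Agent.S15.D

open Fermat.Agent.S15.Sel

theorem exists_cc : ∃ c : GQ, c * c = 1 ∧ ∀ (z : Qb) (n : ℕ), 0 < n → z ^ n = 1 → c z = z⁻¹ := by
  obtain ⟨c, h1, h2⟩ := Fermat.Agent.GAL.Cyclo.exists_conj_inv
  exact ⟨c, h1, fun z n hn hz => h2 n z hn.ne' hz⟩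

/-- a context with `cc * cc = 1`. -/
theorem exists_ctx (P : Places) {r N : ℕ} (hr : r.Prime) (hN : N.Prime) (hrN : r ≠ N)
    (S : (GQ → Qb) → Prop) (hS : SHyp P r S) :
    ∃ X : Ctx, X.P = P ∧ X.r = r ∧ X.N = N ∧ X.S = S ∧ X.cc * X.cc = 1 := by
  obtain ⟨c, h1, h2⟩ := exists_cc
  exact ⟨⟨P, r, N, hr, hN, hrN, S, hS, c, h2⟩, rfl, rfl, rfl, rfl, h1⟩

end Fermat.Agent.S15.D
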