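/-
S15 / block D: convenience lemmas for the application of Corollary D'.
-/
import Fermat.Agent.S15.D.CorD

set_option autoImplicit false
set_option linter.unusedSectionVars false

namespace Fermat.Agent.S15.D

open Fermat.Agent.S15.Sel

variable {X : Ctx} {V : Type*} [AddCommGroup V] [DistribMulAction GQ V]

theorem IsCoc.map_one {z : GQ → V} (hz : IsCoc z) : z 1 = 0 := by
  have h := hz 1 1
  rw [mul_one, one_smul] at h
  exact left_eq_add.1 h

/-- `H¹` of a group of order two is killed by `2`. -/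
theorem two_nsmul_mem_Cm (hcc : X.cc * X.cc = 1) {z : GQ → V} (hz : IsCoc z) :
    2 • z X.cc ∈ Cm X V := by
  have h := hz X.cc X.cc
  rw [hcc, IsCoc.map_one hz] at h
  refine ⟨-z X.cc, ?_⟩
  have h2 : X.cc • z X.cc = -z X.cc := by
    rw [eq_neg_iff_add_eq_zero, add_comm]; exact h.symm
  rw [smul_neg, h2, two_nsmul]
  abel

/-- a cocycle satisfying all the conditions except the one at the real place: its double is in `ZZ`. -/
theorem two_nsmul_mem_ZZ (hcc : X.cc * X.cc = 1) {K : AddSubgroup V} {z : GQ → V}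
    (coc : IsCoc z) (sm : IsSm z)
    (ur : ∀ ℓ : ℕ, ℓ.Prime → ℓ ≠ X.r → ℓ ≠ X.N → ∀ σ ∈ Ine (X.P.pl ℓ), z σ = 0)
    (atN : ∀ σ ∈ Ine (X.P.pl X.N), z σ ∈ K) (flat : FlatCoc X.S z) :
    2 • z ∈ ZZ X K (Cm X V) ⊤ := by
  have h : z ∈ ZZ X K ⊤ ⊤ :=
    { coc := coc, sm := sm, mem := fun _ => AddSubgroup.mem_top _, ur := ur, atN := atN,
      atoo := AddSubgroup.mem_top _, flat := flat }
  have h2 : 2 • z ∈ ZZ X K ⊤ ⊤ := AddSubgroup.nsmul_mem _ h 2
  exact { h2 with atoo := two_nsmul_mem_Cm hcc coc }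

end Fermat.Agent.S15.D
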