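/-
S15 / block D: a perfect self-pairing of `M` (Weil pairing on `J[n]`) induces a perfect pairing between a direct summand `V = eps M` and
`V' = (ker eps)^⊥`.   `V`, `V'` are given as types with injections into `M`.
-/
import Fermat.Agent.S15.D.PairCard

set_option autoImplicit false
set_option linter.unusedSectionVars false

noncomputable section

namespace Fermat.Agent.S15.D

open Fermat.Agent.S15.Sel

variable {M V V' : Type*} [AddCommGroup M] [DistribMulAction GQ M] [AddCommGroup V]
  [DistribMulAction GQ V] [AddCommGroup V'] [DistribMulAction GQ V']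

/-- the induced pairing `V × V' → Qb`. -/
def Pairing.ofSummand [Finite M] (p : Pairing M M) (eps : M →+ M) (heps : ∀ x, eps (eps x) = eps x)
    (ι : V →+ M) (hι : Function.Injective ι) (hιe : ∀ (σ : GQ) (x : V), ι (σ • x) = σ • ι x)
    (hιr : ∀ m : M, (∃ x, ι x = m) ↔ eps m = m)
    (ι' : V' →+ M) (hι' : Function.Injective ι') (hιe' : ∀ (σ : GQ) (x : V'), ι' (σ • x) = σ • ι' x)
    (hιr' : ∀ m : M, (∃ x, ι' x = m) ↔ ∀ y, eps y = 0 → p.e y m = 1) : Pairing V V' where
  e := fun x x' => p.e (ι x) (ι' x')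
  add_left := fun x y x' => by rw [map_add, p.add_left]
  add_right := fun x x' y' => by rw [map_add, p.add_right]
  ne_zero := fun x x' => p.ne_zero _ _
  nd_left := fun x hx => by
    have h1 : ι x ∈ p.flip.perp (p.perp eps.ker) := by
      intro m hm
      obtain ⟨x', rfl⟩ := (hιr' m).2 fun y hy => hm y hy
      exact hx x'
    rw [p.perp_perp] at h1
    have h2 : eps (ι x) = ι x := (hιr _).1 ⟨x, rfl⟩
    have h3 : ι x = 0 := by rw [← h2]; exact h1
    exact hι (by rw [h3, map_zero])
  nd_right := fun x' hx' => by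
    have h1 : ι' x' = 0 := by
      apply p.nd_right
      intro m
      have h2 : m = eps m + (m - eps m) := by abel
      obtain ⟨x, hx⟩ := (hιr (eps m)).2 (heps m)
      have h3 : p.e (m - eps m) (ι' x') = 1 :=
        (hιr' (ι' x')).1 ⟨x', rfl⟩ _ (by rw [map_sub, heps, sub_self])
      rw [h2, p.add_left, h3, mul_one, ← hx]
      exact hx' x
    exact hι' (by rw [h1, map_zero])
  equiv := fun σ x x' => by rw [hιe, hιe', p.equiv]

@[simp] theorem Pairing.ofSummand_e [Finite M] (p : Pairing M M) (eps : M →+ M)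
    (heps : ∀ x, eps (eps x) = eps x)
    (ι : V →+ M) (hι : Function.Injective ι) (hιe : ∀ (σ : GQ) (x : V), ι (σ • x) = σ • ι x)
    (hιr : ∀ m : M, (∃ x, ι x = m) ↔ eps m = m)
    (ι' : V' →+ M) (hι' : Function.Injective ι') (hιe' : ∀ (σ : GQ) (x : V'), ι' (σ • x) = σ • ι' x)
    (hιr' : ∀ m : M, (∃ x, ι' x = m) ↔ ∀ y, eps y = 0 → p.e y m = 1) (x : V) (x' : V') :
    (p.ofSummand eps heps ι hι hιe hιr ι' hι' hιe' hιr').e x x' = p.e (ι x) (ι' x') := rfl

end Fermat.Agent.S15.D

end
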